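/-
S56 / W-BASE / leaf EUL-HERB (helper896), part 1: pure algebra (Mathlib + the landed
Mathlib-only file `S56/H486/T4Charpoly`).

* `charpoly_of_exact`     : multiplicativity of the characteristic polynomial in short exact
                            sequences of finite free modules;
* `cpMod p f`             : the characteristic polynomial of `f ⊗ 𝔽_p` on `𝔽_p ⊗ A` for an
                            endomorphism `f` of a finitely generated abelian group `A`;
* `cpMod_free`            : `cpMod p f = f.charpoly mod p` for a lattice;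
* `cpMod_of_exact`        : multiplicativity of `cpMod` in short exact sequences with FREE cokernel;
* `charpoly_eq_cpMod_of_model` : any model `π : A ↠ V`, `ker π = pA` of `A/pA` computes `cpMod`.
-/
import Mathlib
import Fermat.Agent.S56.H486.T4Charpoly

set_option autoImplicit false
set_option linter.style.haveILetI false
set_option linter.unusedSimpArgs false

namespace Fermat.Agent.S56.Euler.H896

open Polynomial TensorProduct

/-! ## 1. Short exact sequences -/

section SES

variable {R : Type*} [CommRing R]
  {V' V V'' : Type*} [AddCommGroup V'] [AddCommGroup V] [AddCommGroup V'']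
  [Module R V'] [Module R V] [Module R V'']
  [Module.Free R V'] [Module.Finite R V'] [Module.Free R V] [Module.Finite R V]
  [Module.Free R V''] [Module.Finite R V'']

/-- The characteristic polynomial is multiplicative in short exact sequences of finite free
modules with compatible endomorphisms. -/
theorem charpoly_of_exact (i : V' →ₗ[R] V) (q : V →ₗ[R] V'')
    (hi : Function.Injective i) (hq : Function.Surjective q) (hex : Function.Exact i q)
    (f' : V' →ₗ[R] V') (f : V →ₗ[R] V) (f'' : V'' →ₗ[R] V'')
    (h1 : ∀ x, i (f' x) = f (i x)) (h2 : ∀ x, q (f x) = f'' (q x)) :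
    f.charpoly = f'.charpoly * f''.charpoly := by
  classical
  set W : Submodule R V := LinearMap.range i with hW
  have hker : LinearMap.ker q = W := (LinearMap.exact_iff.mp hex)
  let e1 : V' ≃ₗ[R] W := LinearEquiv.ofInjective i hi
  let e2 : (V ⧸ W) ≃ₗ[R] V'' :=
    (Submodule.quotEquivOfEq W (LinearMap.ker q) hker.symm).trans (q.quotKerEquivOfSurjective hq)
  haveI : Module.Free R W := Module.Free.of_equiv e1
  haveI : Module.Finite R W := Module.Finite.equiv e1
  haveI : Module.Free R (V ⧸ W) := Module.Free.of_equiv e2.symm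
  have he : W ≤ W.comap f := by
    rintro _ ⟨x, rfl⟩
    exact ⟨f' x, h1 x⟩
  rw [Fermat.Agent.S56.H486.t4_charpoly_eq_restrict_mul_mapQ W f he]
  congr 1
  · symm
    apply Fermat.Agent.S56.H486.t4_charpoly_eq_of_equiv e1
    intro x
    apply Subtype.ext
    change i (f' x) = f (i x)
    exact h1 x
  · apply Fermat.Agent.S56.H486.t4_charpoly_eq_of_equiv e2
    intro x
    induction x using Submodule.Quotient.induction_on with
    | _ x =>
      simp only [Submodule.mapQ_apply]
      change q (f x) = f'' (q x)
      exact h2 x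

end SES

/-! ## 2. The characteristic polynomial mod `p` of an endomorphism of a f.g. abelian group -/

section CpMod

variable (p : ℕ) [Fact p.Prime]

/-- The characteristic polynomial of `f ⊗ 𝔽_p` acting on `𝔽_p ⊗_ℤ A`. -/
noncomputable def cpMod {A : Type*} [AddCommGroup A] [Module.Finite ℤ A] (f : A →ₗ[ℤ] A) :
    (ZMod p)[X] :=
  (f.baseChange (ZMod p)).charpoly

/-- For a lattice, `cpMod` is the reduction of the integral characteristic polynomial. -/
theorem cpMod_free {A : Type*} [AddCommGroup A] [Module.Finite ℤ A] [Module.Free ℤ A]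
    (f : A →ₗ[ℤ] A) : cpMod p f = f.charpoly.map (Int.castRingHom (ZMod p)) := by
  unfold cpMod
  rw [LinearMap.charpoly_baseChange]
  rfl

/-- Equivariantly isomorphic endomorphisms have the same `cpMod`. -/
theorem cpMod_congr {A B : Type*} [AddCommGroup A] [Module.Finite ℤ A] [AddCommGroup B]
    [Module.Finite ℤ B] (e : A ≃ₗ[ℤ] B) (f : A →ₗ[ℤ] A) (g : B →ₗ[ℤ] B)
    (h : ∀ x, e (f x) = g (e x)) : cpMod p f = cpMod p g := by
  unfold cpMod
  apply Fermat.Agent.S56.H486.t4_charpoly_eq_of_equiv (e.baseChange ℤ (ZMod p) A B)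
  intro x
  induction x using TensorProduct.induction_on with
  | zero => simp
  | tmul a x => simp [h]
  | add x y hx hy => simp only [map_add, hx, hy]

/-- `cpMod` is multiplicative in short exact sequences with free cokernel. -/
theorem cpMod_of_exact {A' A A'' : Type*} [AddCommGroup A'] [AddCommGroup A] [AddCommGroup A'']
    [Module.Finite ℤ A'] [Module.Finite ℤ A] [Module.Finite ℤ A''] [Module.Free ℤ A'']
    (i : A' →ₗ[ℤ] A) (q : A →ₗ[ℤ] A'')
    (hi : Function.Injective i) (hq : Function.Surjective q) (hex : Function.Exact i q)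
    (f' : A' →ₗ[ℤ] A') (f : A →ₗ[ℤ] A) (f'' : A'' →ₗ[ℤ] A'')
    (h1 : ∀ x, i (f' x) = f (i x)) (h2 : ∀ x, q (f x) = f'' (q x)) :
    cpMod p f = cpMod p f' * cpMod p f'' := by
  classical
  unfold cpMod
  -- a section of `q` and the induced retraction of `i`
  obtain ⟨s, hs⟩ := Module.projective_lifting_property q LinearMap.id hq
  have hs' : ∀ x, q (s x) = x := fun x => by
    have := congrArg (fun l => l x) hs
    simpa using this
  have hmem : ∀ a : A, a - s (q a) ∈ LinearMap.range i := by
    intro a
    rw [← LinearMap.exact_iff.mp hex, LinearMap.mem_ker, map_sub, hs', sub_self]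
  let e1 : A' ≃ₗ[ℤ] LinearMap.range i := LinearEquiv.ofInjective i hi
  let r : A →ₗ[ℤ] A' :=
    e1.symm.toLinearMap ∘ₗ
      (LinearMap.codRestrict (LinearMap.range i) (LinearMap.id - s ∘ₗ q) hmem)
  have hr : r ∘ₗ i = LinearMap.id := by
    ext x
    have h0 : q (i x) = 0 := hex.apply_apply_eq_zero x
    have : LinearMap.codRestrict (LinearMap.range i) (LinearMap.id - s ∘ₗ q) hmem (i x) =
        e1 x := by
      apply Subtype.ext
      simp [e1, h0]
    simp [r, this]
  have hinj : Function.Injective (i.baseChange (ZMod p)) := by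
    have h : (r.baseChange (ZMod p)) ∘ₗ (i.baseChange (ZMod p)) = LinearMap.id := by
      rw [← LinearMap.baseChange_comp, hr, LinearMap.baseChange_id]
    exact Function.LeftInverse.injective (g := r.baseChange (ZMod p))
      (fun x => by
        have := congrArg (fun l => l x) h
        simpa using this)
  have hsurj : Function.Surjective (q.baseChange (ZMod p)) := by
    rw [LinearMap.baseChange_eq_ltensor]
    exact LinearMap.lTensor_surjective _ hq
  have hexact : Function.Exact (i.baseChange (ZMod p)) (q.baseChange (ZMod p)) := by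
    rw [LinearMap.baseChange_eq_ltensor, LinearMap.baseChange_eq_ltensor]
    exact lTensor_exact (ZMod p) hex hq
  apply charpoly_of_exact (i.baseChange (ZMod p)) (q.baseChange (ZMod p)) hinj hsurj hexact
  · intro x
    induction x using TensorProduct.induction_on with
    | zero => simp
    | tmul a x => simp [h1]
    | add x y hx hy => simp only [map_add, hx, hy]
  · intro x
    induction x using TensorProduct.induction_on with
    | zero => simp
    | tmul a x => simp [h2]
    | add x y hx hy => simp only [map_add, hx, hy]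

/-- Every element of `𝔽_p ⊗ A` is of the form `1 ⊗ a`. -/
theorem exists_one_tmul {A : Type*} [AddCommGroup A] (x : ZMod p ⊗[ℤ] A) :
    ∃ a : A, x = (1 : ZMod p) ⊗ₜ[ℤ] a := by
  induction x using TensorProduct.induction_on with
  | zero => exact ⟨0, by simp⟩
  | tmul c a =>
    obtain ⟨n, rfl⟩ := ZMod.intCast_surjective c
    refine ⟨n • a, ?_⟩
    rw [TensorProduct.tmul_smul, TensorProduct.smul_tmul', zsmul_one]
  | add x y hx hy =>
    obtain ⟨a, rfl⟩ := hx
    obtain ⟨b, rfl⟩ := hy
    exact ⟨a + b, by rw [TensorProduct.tmul_add]⟩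

/-- **Models.** If `π : A ↠ V` is a surjection onto an `𝔽_p`-vector space with kernel `pA` and
`g` is the endomorphism of `V` induced by `f`, then `g.charpoly = cpMod p f`. -/
theorem charpoly_eq_cpMod_of_model {A : Type*} [AddCommGroup A] [Module.Finite ℤ A]
    (f : A →ₗ[ℤ] A)
    {V : Type*} [AddCommGroup V] [Module (ZMod p) V] [Module.Finite (ZMod p) V]
    (g : V →ₗ[ZMod p] V) (π : A →+ V) (hπ : Function.Surjective π)
    (hπk : ∀ a, π a = 0 → ∃ b, a = p • b) (hg : ∀ a, π (f a) = g (π a)) :
    g.charpoly = cpMod p f := by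
  classical
  unfold cpMod
  symm
  let l : ZMod p ⊗[ℤ] A →ₗ[ZMod p] V := LinearMap.liftBaseChange (ZMod p) π.toIntLinearMap
  have hl : ∀ (c : ZMod p) (a : A), l (c ⊗ₜ a) = c • π a := by
    intro c a
    simp [l]
  have hlinj : Function.Injective l := by
    rw [injective_iff_map_eq_zero]
    intro x hx
    obtain ⟨a, rfl⟩ := exists_one_tmul p x
    rw [hl, one_smul] at hx
    obtain ⟨b, rfl⟩ := hπk a hx
    rw [← Nat.cast_smul_eq_nsmul ℤ, TensorProduct.tmul_smul, TensorProduct.smul_tmul']
    simp
  have hlsurj : Function.Surjective l := by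
    intro v
    obtain ⟨a, rfl⟩ := hπ v
    exact ⟨1 ⊗ₜ a, by rw [hl, one_smul]⟩
  apply Fermat.Agent.S56.H486.t4_charpoly_eq_of_equiv (LinearEquiv.ofBijective l ⟨hlinj, hlsurj⟩)
  intro x
  obtain ⟨a, rfl⟩ := exists_one_tmul p x
  rw [LinearMap.baseChange_tmul]
  change l (1 ⊗ₜ f a) = g (l (1 ⊗ₜ a))
  rw [hl, hl, one_smul, one_smul, hg]

end CpMod

/-! ## 3. Lattices: comparison of characteristic polynomials -/

section Lattice

/-- **Base change along a basis.**  If `j : Λ → W` is an `R`-linear equivariant map from a free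
`R`-module to a free `S`-module carrying a basis to a basis, the characteristic polynomial on `W`
is the image of the one on `Λ`. -/
theorem charpoly_map_of_basis {R S : Type*} [CommRing R] [CommRing S] [Algebra R S]
    {Λ W : Type*} [AddCommGroup Λ] [Module R Λ] [AddCommGroup W] [Module S W] [Module R W]
    [IsScalarTower R S W]
    [Module.Free R Λ] [Module.Finite R Λ] [Module.Free S W] [Module.Finite S W]
    {ι : Type*} [Fintype ι] [DecidableEq ι] (bΛ : Module.Basis ι R Λ) (bW : Module.Basis ι S W)
    (j : Λ →ₗ[R] W) (hj : ∀ i, j (bΛ i) = bW i)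
    (f : Λ →ₗ[R] Λ) (F : W →ₗ[S] W) (hf : ∀ x, j (f x) = F (j x)) :
    F.charpoly = f.charpoly.map (algebraMap R S) := by
  have key : ∀ x : Λ, ∀ i, bW.repr (j x) i = algebraMap R S (bΛ.repr x i) := by
    intro x i
    have hx : j x = ∑ l, (algebraMap R S (bΛ.repr x l)) • bW l := by
      conv_lhs => rw [← bΛ.sum_repr x]
      rw [map_sum]
      refine Finset.sum_congr rfl fun l _ => ?_
      rw [map_smul, hj, algebraMap_smul]
    rw [hx, bW.repr_sum_self]
  rw [← F.charpoly_toMatrix bW, ← f.charpoly_toMatrix bΛ, ← Matrix.charpoly_map]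
  congr 1
  ext i k
  rw [LinearMap.toMatrix_apply, Matrix.map_apply, LinearMap.toMatrix_apply, ← hj, ← hf, key]

/-- **Isogenous lattices.**  Two lattices related by equivariant maps `j`, `k` with
`j ∘ k = m`, `k ∘ j = m` (`m ≠ 0`) have the same characteristic polynomial. -/
theorem charpoly_eq_of_isogeny {Λ' Λ₀ : Type*} [AddCommGroup Λ'] [AddCommGroup Λ₀]
    [Module.Free ℤ Λ'] [Module.Finite ℤ Λ'] [Module.Free ℤ Λ₀] [Module.Finite ℤ Λ₀]
    (j : Λ' →ₗ[ℤ] Λ₀) (k : Λ₀ →ₗ[ℤ] Λ') (m : ℤ) (hm : m ≠ 0)
    (hjk : ∀ x, j (k x) = m • x) (hkj : ∀ x, k (j x) = m • x)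
    (f' : Λ' →ₗ[ℤ] Λ') (f₀ : Λ₀ →ₗ[ℤ] Λ₀) (h : ∀ x, j (f' x) = f₀ (j x)) :
    f'.charpoly = f₀.charpoly := by
  apply Polynomial.map_injective (Int.castRingHom ℚ) Int.cast_injective
  have e1 := LinearMap.charpoly_baseChange f' ℚ
  have e2 := LinearMap.charpoly_baseChange f₀ ℚ
  change _ = f'.charpoly.map (Int.castRingHom ℚ) at e1
  change _ = f₀.charpoly.map (Int.castRingHom ℚ) at e2
  rw [← e1, ← e2]
  have hmQ : (m : ℚ) ≠ 0 := by exact_mod_cast hm
  have h1 : (j.baseChange ℚ) ∘ₗ ((m : ℚ)⁻¹ • k.baseChange ℚ) = LinearMap.id := by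
    ext x
    simp only [TensorProduct.AlgebraTensorModule.curry_apply, LinearMap.restrictScalars_comp,
      TensorProduct.curry_apply, LinearMap.coe_comp, LinearMap.coe_restrictScalars,
      Function.comp_apply, LinearMap.smul_apply, LinearMap.baseChange_tmul, map_smul, hjk,
      LinearMap.id_coe, id_eq]
    rw [TensorProduct.tmul_smul, ← Int.cast_smul_eq_zsmul ℚ, smul_smul, inv_mul_cancel₀ hmQ,
      one_smul]
  have h2 : ((m : ℚ)⁻¹ • k.baseChange ℚ) ∘ₗ (j.baseChange ℚ) = LinearMap.id := by
    ext x
    simp only [TensorProduct.AlgebraTensorModule.curry_apply, LinearMap.restrictScalars_comp,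
      TensorProduct.curry_apply, LinearMap.coe_comp, LinearMap.coe_restrictScalars,
      Function.comp_apply, LinearMap.smul_apply, LinearMap.baseChange_tmul, hkj,
      LinearMap.id_coe, id_eq]
    rw [TensorProduct.tmul_smul, ← Int.cast_smul_eq_zsmul ℚ, smul_smul, inv_mul_cancel₀ hmQ,
      one_smul]
  apply Fermat.Agent.S56.H486.t4_charpoly_eq_of_equiv
    (LinearEquiv.ofLinearMap (j.baseChange ℚ) ((m : ℚ)⁻¹ • k.baseChange ℚ) h1 h2)
  intro x
  induction x using TensorProduct.induction_on with
  | zero => simp
  | tmul a x => simp [h]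
  | add x y hx hy => simp only [map_add, hx, hy]

/-- The permutation-type endomorphism `a ↦ a ∘ s` of `X → R`. -/
abbrev permLin (R : Type*) [CommRing R] {X : Type*} (s : X → X) : (X → R) →ₗ[R] (X → R) :=
  LinearMap.funLeft R R s

/-- The characteristic polynomial of `permLin` is compatible with change of rings. -/
theorem permLin_charpoly_map (R S : Type*) [CommRing R] [CommRing S] [Algebra R S]
    {X : Type*} [Fintype X] (s : X → X) :
    (permLin S s).charpoly = (permLin R s).charpoly.map (algebraMap R S) := by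
  classical
  letI : Module R (X → S) := Pi.module _ _ _
  apply charpoly_map_of_basis (Pi.basisFun R X) (Pi.basisFun S X)
    ((Algebra.linearMap R S).compLeft X)
  · intro i
    ext x
    by_cases hx : x = i
    · subst hx; simp
    · simp [hx]
  · intro a
    ext x
    simp [LinearMap.funLeft]

end Lattice

end Fermat.Agent.S56.Euler.H896
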