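/-
S56 / W-BASE / leaf EUL-HERB (helper896), part 2: the abstract core (no number theory).

An abelian group `A` with an endomorphism `t`, stable subgroups `U ≤ E`, a "logarithm"
`φ : A → ℝ^X` and an "order map" `ψ : A → ℤ^Y`, with the formal properties of the unit theorem.
Conclusion: the characteristic polynomial of `t` on `E/pE` times `X - 1` is the product of the
characteristic polynomials on `E[p]` and on the permutation modules `𝔽_p^X`, `𝔽_p^Y`.
-/
import Mathlib
import Fermat.Agent.S56.H486.T4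
import Fermat.Agent.S56.Euler.H896.HerbAlg

set_option autoImplicit false
set_option linter.style.haveILetI false
set_option linter.unusedSimpArgs false
set_option linter.unusedVariables false

namespace Fermat.Agent.S56.Euler.H896

open Polynomial TensorProduct

section Aux

variable {A : Type*} [AddCommGroup A]

/-- Restriction of an additive endomorphism to a stable subgroup, as a `ℤ`-linear map. -/
def resEnd (t : A →+ A) (H : AddSubgroup A) (h : ∀ a ∈ H, t a ∈ H) : ↥H →ₗ[ℤ] ↥H :=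
  ((t.comp H.subtype).codRestrict H (fun x => h x.1 x.2)).toIntLinearMap

@[simp] lemma resEnd_coe (t : A →+ A) (H : AddSubgroup A) (h : ∀ a ∈ H, t a ∈ H) (x : ↥H) :
    ((resEnd t H h x : ↥H) : A) = t x := rfl

/-- A middle term of a short exact sequence of abelian groups with finitely generated ends is
finitely generated. -/
theorem finite_of_exact {A' A A'' : Type*} [AddCommGroup A'] [AddCommGroup A] [AddCommGroup A'']
    [Module.Finite ℤ A'] [Module.Finite ℤ A'']
    (i : A' →ₗ[ℤ] A) (q : A →ₗ[ℤ] A'') (hex : Function.Exact i q) : Module.Finite ℤ A := by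
  haveI : IsNoetherian ℤ A := isNoetherian_of_range_eq_ker i q (LinearMap.exact_iff.mp hex).symm
  infer_instance

variable (p : ℕ) [Fact p.Prime]

/-- Any additive map to an `𝔽_p`-vector space kills the kernel of `a ↦ 1 ⊗ a`. -/
theorem map_eq_zero_of_one_tmul_eq_zero {Q : Type*} [AddCommGroup Q]
    [Module (ZMod p) Q] (π : A →+ Q) (a : A) (h : (1 : ZMod p) ⊗ₜ[ℤ] a = 0) : π a = 0 := by
  let l : ZMod p ⊗[ℤ] A →ₗ[ZMod p] Q :=
    LinearMap.liftBaseChange (ZMod p) π.toIntLinearMap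
  have hl : l ((1 : ZMod p) ⊗ₜ[ℤ] a) = π a := by
    simp [l]
  rw [h, map_zero] at hl
  exact hl.symm

/-- The kernel of `a ↦ 1 ⊗ a : A → 𝔽_p ⊗ A` is `pA`. -/
theorem exists_eq_nsmul_of_one_tmul_eq_zero (a : A) (h : (1 : ZMod p) ⊗ₜ[ℤ] a = 0) :
    ∃ b : A, a = p • b := by
  obtain ⟨H, hH⟩ : ∃ H : AddSubgroup A, H = (nsmulAddMonoidHom (α := A) p).range := ⟨_, rfl⟩
  have hH' : ∀ x : A, p • x ∈ H := fun x => by rw [hH]; exact ⟨x, rfl⟩
  letI inst : Module (ZMod p) (A ⧸ H) := QuotientAddGroup.zmodModule (n := p) (H := H) hH'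
  have := map_eq_zero_of_one_tmul_eq_zero p (QuotientAddGroup.mk' H) a h
  have : a ∈ H := (QuotientAddGroup.eq_zero_iff a).mp this
  rw [hH] at this
  obtain ⟨b, hb⟩ := this
  exact ⟨b, hb.symm⟩

/-- **T4 in `cpMod` form**: for a finite abelian group `M` with endomorphism `f`, any model
`(W, ι, gμ)` of the `p`-torsion `M[p]` computes `cpMod p f`. -/
theorem cpMod_eq_charpoly_of_torsion_model {M : Type*} [AddCommGroup M] [Finite M]
    (f : M →ₗ[ℤ] M)
    {W : Type*} [AddCommGroup W] [Module (ZMod p) W] [Module.Finite (ZMod p) W]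
    (gμ : W →ₗ[ZMod p] W) (ι : W →+ M) (hι : Function.Injective ι)
    (hιr : ∀ a, p • a = 0 → a ∈ ι.range) (hgμ : ∀ w, ι (gμ w) = f (ι w)) :
    cpMod p f = gμ.charpoly := by
  classical
  haveI : Finite W := Finite.of_injective ι hι
  haveI : Finite (ZMod p ⊗[ℤ] M) := Module.finite_of_finite (ZMod p)
  let π : M →+ ZMod p ⊗[ℤ] M :=
    { toFun := fun a => (1 : ZMod p) ⊗ₜ[ℤ] a
      map_zero' := by simp
      map_add' := fun a b => TensorProduct.tmul_add _ _ _ }
  symm
  unfold cpMod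
  apply Fermat.Agent.S56.H486.t4_charpoly_torsion_eq_cotorsion p f.toAddMonoidHom gμ
    (f.baseChange (ZMod p)) ι π hι
  · intro a
    constructor
    · rintro ⟨w, rfl⟩
      rw [← map_nsmul]
      have : p • w = 0 := by
        rw [← Nat.cast_smul_eq_nsmul (ZMod p)]
        simp
      rw [this, map_zero]
    · exact hιr a
  · intro x
    obtain ⟨a, rfl⟩ := exists_one_tmul p x
    exact ⟨a, rfl⟩
  · intro a
    constructor
    · exact exists_eq_nsmul_of_one_tmul_eq_zero p a
    · rintro ⟨b, rfl⟩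
      change (1 : ZMod p) ⊗ₜ[ℤ] (p • b) = 0
      rw [← Nat.cast_smul_eq_nsmul ℤ, TensorProduct.tmul_smul, TensorProduct.smul_tmul']
      simp
  · intro w
    exact hgμ w
  · intro a
    change (1 : ZMod p) ⊗ₜ[ℤ] (f a) = (f.baseChange (ZMod p)) ((1 : ZMod p) ⊗ₜ[ℤ] a)
    rw [LinearMap.baseChange_tmul]

end Aux

/-! ## The two integral identities -/

section Integral

/-- The characteristic polynomial of the identity of `R` is `X - 1`. -/
theorem charpoly_id_self (R : Type*) [CommRing R] [Nontrivial R] :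
    (LinearMap.id : R →ₗ[R] R).charpoly = Polynomial.X - 1 := by
  have h := LinearMap.charpoly_one (R := R) (M := R)
  rw [Module.finrank_self, pow_one] at h
  exact h

/-- **Logarithmic lattice.**  If `Λ = ⊕ ℤ b i` is a lattice in the trace-zero hyperplane of `ℝ^I`,
stable under the permutation `s`, then `charpoly(s | Λ) · (X - 1) = charpoly(s | ℤ^I)`. -/
theorem charpoly_logLattice {I : Type*} [Fintype I] [Nonempty I] (sX : I → I)
    (hsX : Function.Bijective sX)
    (r : ℕ) (b : Fin r → I → ℝ) (hb : LinearIndependent ℝ b)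
    (hspan : Submodule.span ℝ (Set.range b) =
      LinearMap.ker (∑ w : I, LinearMap.proj w : (I → ℝ) →ₗ[ℝ] ℝ))
    (hstab : ∀ x ∈ Submodule.span ℤ (Set.range b),
      ((permLin ℝ sX).restrictScalars ℤ) x ∈ Submodule.span ℤ (Set.range b))
    [Module.Free ℤ ↥(Submodule.span ℤ (Set.range b))]
    [Module.Finite ℤ ↥(Submodule.span ℤ (Set.range b))] :
    (((permLin ℝ sX).restrictScalars ℤ).restrict hstab).charpoly * (Polynomial.X - 1) =
      (permLin ℤ sX).charpoly := by
  classical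
  have hSapp : ∀ a : I → ℝ, (∑ w : I, LinearMap.proj w : (I → ℝ) →ₗ[ℝ] ℝ) a = ∑ w, a w := by
    intro a
    simp [LinearMap.sum_apply]
  generalize (∑ w : I, LinearMap.proj w : (I → ℝ) →ₗ[ℝ] ℝ) = S at hspan hSapp
  have hbℤ : LinearIndependent ℤ b := hb.restrict_scalars' ℤ
  let bΛ : Module.Basis (Fin r) ℤ (Submodule.span ℤ (Set.range b)) := Module.Basis.span hbℤ
  let bW : Module.Basis (Fin r) ℝ (LinearMap.ker S) :=
    (Module.Basis.span hb).map (LinearEquiv.ofEq _ _ hspan)
  have hsum : ∀ a : I → ℝ, S (permLin ℝ sX a) = S a := by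
    intro a
    rw [hSapp, hSapp]
    exact Function.Bijective.sum_comp hsX a
  have hstabW : ∀ x ∈ LinearMap.ker S, permLin ℝ sX x ∈ LinearMap.ker S := by
    intro x hx
    rw [LinearMap.mem_ker] at hx ⊢
    rw [hsum, hx]
  have hΛW : ∀ x : (Submodule.span ℤ (Set.range b)), (x : I → ℝ) ∈ LinearMap.ker S := by
    intro x
    rw [← hspan]
    exact Submodule.span_subset_span ℤ ℝ _ x.2
  let j : (Submodule.span ℤ (Set.range b)) →ₗ[ℤ] (LinearMap.ker S) :=
    { toFun := fun x => ⟨x.1, hΛW x⟩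
      map_add' := fun x y => rfl
      map_smul' := fun c x => by
        apply Subtype.ext
        simp }
  have hj : ∀ i, j (bΛ i) = bW i := by
    intro i
    apply Subtype.ext
    change ((Module.Basis.span hbℤ i : Submodule.span ℤ (Set.range b)) : I → ℝ) =
      (((Module.Basis.span hb).map (LinearEquiv.ofEq _ _ hspan) i : LinearMap.ker S) : I → ℝ)
    rw [Module.Basis.span_apply, Module.Basis.map_apply]
    change b i = ((Module.Basis.span hb i : Submodule.span ℝ (Set.range b)) : I → ℝ)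
    rw [Module.Basis.span_apply]
  have e1 := charpoly_map_of_basis bΛ bW j hj
    (((permLin ℝ sX).restrictScalars ℤ).restrict hstab) ((permLin ℝ sX).restrict hstabW)
    (fun x => rfl)
  have hSsurj : Function.Surjective S := by
    intro c
    obtain ⟨x₀⟩ := ‹Nonempty I›
    refine ⟨Pi.single x₀ c, ?_⟩
    rw [hSapp]
    simp
  have e2 := charpoly_of_exact (LinearMap.ker S).subtype S (Submodule.injective_subtype _) hSsurj
    (by
      rw [LinearMap.exact_iff]
      simp)
    ((permLin ℝ sX).restrict hstabW) (permLin ℝ sX) LinearMap.id (fun x => rfl) hsum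
  rw [charpoly_id_self] at e2
  have e3 := permLin_charpoly_map ℤ ℝ sX
  apply Polynomial.map_injective (algebraMap ℤ ℝ) (by
    intro a b hab
    exact_mod_cast hab)
  rw [Polynomial.map_mul, ← e1, ← e3, e2]
  simp

/-- **Order lattice.**  A permutation-stable sublattice of finite index of `ℤ^Y` has the same
characteristic polynomial as `ℤ^Y`. -/
theorem charpoly_finiteIndex {J : Type*} [Fintype J] (sY : J → J)
    (Λ : Submodule ℤ (J → ℤ)) (hidx : Λ.toAddSubgroup.index ≠ 0)
    (hstab : ∀ x ∈ Λ, permLin ℤ sY x ∈ Λ) :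
    ((permLin ℤ sY).restrict hstab).charpoly = (permLin ℤ sY).charpoly := by
  classical
  set m : ℕ := Λ.toAddSubgroup.index with hm
  have hmem : ∀ x : J → ℤ, (m : ℤ) • x ∈ Λ := by
    intro x
    have := AddSubgroup.nsmul_index_mem Λ.toAddSubgroup x
    rw [← hm] at this
    rw [Nat.cast_smul_eq_nsmul ℤ]
    exact this
  let k : (J → ℤ) →ₗ[ℤ] Λ :=
    LinearMap.codRestrict Λ ((m : ℤ) • (LinearMap.id : (J → ℤ) →ₗ[ℤ] (J → ℤ))) hmem
  apply charpoly_eq_of_isogeny Λ.subtype k (m : ℤ) (by exact_mod_cast hidx)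
  · intro x
    rfl
  · intro x
    apply Subtype.ext
    rfl
  · intro x
    rfl

end Integral

/-! ## The core theorem -/

section Core

variable {A : Type*} [AddCommGroup A]

/-- **HERB, abstract core.** -/
theorem herb_core
    (t : A →+ A) (U E : AddSubgroup A)
    (hU : ∀ a ∈ U, t a ∈ U) (hE : ∀ a ∈ E, t a ∈ E)
    {I J : Type*} [Fintype I] [Nonempty I] [Fintype J]
    (sX : I → I) (hsX : Function.Bijective sX) (sY : J → J)
    (φ : A →+ (I → ℝ)) (hφ : ∀ a, φ (t a) = fun x => φ a (sX x))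
    (hφfin : Finite ↥(φ.ker ⊓ U))
    (r : ℕ) (b : Fin r → I → ℝ) (hb : LinearIndependent ℝ b)
    (hspan : Submodule.span ℝ (Set.range b) =
      LinearMap.ker (∑ w : I, LinearMap.proj w : (I → ℝ) →ₗ[ℝ] ℝ))
    (hUφ : U.map φ = (Submodule.span ℤ (Set.range b)).toAddSubgroup)
    (ψ : A →+ (J → ℤ)) (hψ : ∀ a, ψ (t a) = fun y => ψ a (sY y))
    (hker : ψ.ker ⊓ E = U) (hidx : (E.map ψ).index ≠ 0)
    (p : ℕ) [Fact p.Prime]
    {V : Type*} [AddCommGroup V] [Module (ZMod p) V] [Module.Finite (ZMod p) V]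
    (g : V →ₗ[ZMod p] V) (π : ↥E →+ V) (hπ : Function.Surjective π)
    (hπk : ∀ a, π a = 0 → ∃ b, a = p • b)
    (hg : ∀ a b : ↥E, (b : A) = t a → π b = g (π a))
    {W : Type*} [AddCommGroup W] [Module (ZMod p) W] [Module.Finite (ZMod p) W]
    (gμ : W →ₗ[ZMod p] W) (ι : W →+ A) (hι : Function.Injective ι)
    (hιr : ∀ a, a ∈ ι.range ↔ a ∈ E ∧ p • a = 0)
    (hgμ : ∀ w, ι (gμ w) = t (ι w)) :
    g.charpoly * (Polynomial.X - 1) =
      gμ.charpoly * (permLin (ZMod p) sX).charpoly * (permLin (ZMod p) sY).charpoly := by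
  classical
  -- the subgroups
  obtain ⟨μ, hμdef⟩ : ∃ μ : AddSubgroup A, μ = φ.ker ⊓ U := ⟨_, rfl⟩
  have hμmem : ∀ a, a ∈ μ ↔ φ a = 0 ∧ a ∈ U := by
    intro a
    rw [hμdef, AddSubgroup.mem_inf, AddMonoidHom.mem_ker]
  have hUmem : ∀ a, a ∈ U ↔ ψ a = 0 ∧ a ∈ E := by
    intro a
    rw [← hker, AddSubgroup.mem_inf, AddMonoidHom.mem_ker]
  have hμU : μ ≤ U := fun a ha => ((hμmem a).1 ha).2
  have hUE : U ≤ E := fun a ha => ((hUmem a).1 ha).2
  have hμ : ∀ a ∈ μ, t a ∈ μ := by
    intro a ha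
    obtain ⟨ha1, ha2⟩ := (hμmem a).1 ha
    refine (hμmem _).2 ⟨?_, hU a ha2⟩
    rw [hφ, ha1]
    rfl
  haveI : Finite ↥μ := by rw [hμdef]; exact hφfin
  -- the lattice `Λ = φ(U)`
  obtain ⟨Λ, hΛdef⟩ : ∃ Λ : Submodule ℤ (I → ℝ), Λ = Submodule.span ℤ (Set.range b) := ⟨_, rfl⟩
  have hΛmem : ∀ x, x ∈ Λ ↔ ∃ u ∈ U, φ u = x := by
    intro x
    rw [hΛdef, ← Submodule.mem_toAddSubgroup, ← hUφ]
    rfl
  have hstabΛ : ∀ x ∈ Λ, ((permLin ℝ sX).restrictScalars ℤ) x ∈ Λ := by
    intro x hx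
    obtain ⟨u, hu, rfl⟩ := (hΛmem x).1 hx
    exact (hΛmem _).2 ⟨t u, hU u hu, by rw [hφ]; rfl⟩
  haveI : Module.Free ℤ Λ := by
    rw [hΛdef]
    exact Module.Free.of_basis (Module.Basis.span (hb.restrict_scalars' ℤ))
  haveI : Module.Finite ℤ Λ := by
    rw [hΛdef]
    exact Module.Finite.span_of_finite ℤ (Set.finite_range b)
  -- the lattice `ΛE = ψ(E)`
  obtain ⟨ΛE, hΛEdef⟩ : ∃ ΛE : Submodule ℤ (J → ℤ), ΛE = AddSubgroup.toIntSubmodule (E.map ψ) :=
    ⟨_, rfl⟩
  have hΛEmem : ∀ x, x ∈ ΛE ↔ ∃ u ∈ E, ψ u = x := by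
    intro x
    rw [hΛEdef]
    rfl
  have hstabΛE : ∀ x ∈ ΛE, permLin ℤ sY x ∈ ΛE := by
    intro x hx
    obtain ⟨u, hu, rfl⟩ := (hΛEmem x).1 hx
    exact (hΛEmem _).2 ⟨t u, hE u hu, by rw [hψ]; rfl⟩
  have hΛEidx : ΛE.toAddSubgroup.index ≠ 0 := by
    rw [hΛEdef]
    exact hidx
  -- the maps
  let iμ : ↥μ →ₗ[ℤ] ↥U := (AddSubgroup.inclusion hμU).toIntLinearMap
  let qU : ↥U →ₗ[ℤ] ↥Λ :=
    { toFun := fun u => ⟨φ u, (hΛmem _).2 ⟨u, u.2, rfl⟩⟩
      map_add' := fun x y => by
        apply Subtype.ext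
        simp
      map_smul' := fun c x => by
        apply Subtype.ext
        simp }
  let iU : ↥U →ₗ[ℤ] ↥E := (AddSubgroup.inclusion hUE).toIntLinearMap
  let qE : ↥E →ₗ[ℤ] ↥ΛE :=
    { toFun := fun u => ⟨ψ u, (hΛEmem _).2 ⟨u, u.2, rfl⟩⟩
      map_add' := fun x y => by
        apply Subtype.ext
        simp
      map_smul' := fun c x => by
        apply Subtype.ext
        simp }
  have hiμ : Function.Injective iμ := AddSubgroup.inclusion_injective hμU
  have hiU : Function.Injective iU := AddSubgroup.inclusion_injective hUE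
  have hqU : Function.Surjective qU := by
    rintro ⟨x, hx⟩
    obtain ⟨u, hu, rfl⟩ := (hΛmem x).1 hx
    exact ⟨⟨u, hu⟩, rfl⟩
  have hqE : Function.Surjective qE := by
    rintro ⟨x, hx⟩
    obtain ⟨u, hu, rfl⟩ := (hΛEmem x).1 hx
    exact ⟨⟨u, hu⟩, rfl⟩
  have hexU : Function.Exact iμ qU := by
    intro u
    constructor
    · intro h
      have h' : φ (u : A) = 0 := congrArg Subtype.val h
      exact ⟨⟨u.1, (hμmem _).2 ⟨h', u.2⟩⟩, rfl⟩
    · rintro ⟨m, rfl⟩
      apply Subtype.ext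
      exact ((hμmem _).1 m.2).1
  have hexE : Function.Exact iU qE := by
    intro u
    constructor
    · intro h
      have h' : ψ (u : A) = 0 := congrArg Subtype.val h
      exact ⟨⟨u.1, (hUmem _).2 ⟨h', u.2⟩⟩, rfl⟩
    · rintro ⟨m, rfl⟩
      apply Subtype.ext
      exact ((hUmem _).1 m.2).1
  -- finiteness
  haveI : Module.Finite ℤ ↥μ := Module.Finite.of_finite
  haveI : Module.Finite ℤ ↥U := finite_of_exact iμ qU hexU
  haveI : Module.Finite ℤ ↥ΛE := inferInstance
  haveI : Module.Free ℤ ↥ΛE := inferInstance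
  haveI : Module.Finite ℤ ↥E := finite_of_exact iU qE hexE
  -- the chain of identities mod `p`
  have c1 : g.charpoly = cpMod p (resEnd t E hE) :=
    charpoly_eq_cpMod_of_model p (resEnd t E hE) g π hπ hπk (fun a => hg a _ rfl)
  have c2 : cpMod p (resEnd t E hE) =
      cpMod p (resEnd t U hU) * cpMod p ((permLin ℤ sY).restrict hstabΛE) :=
    cpMod_of_exact p iU qE hiU hqE hexE (resEnd t U hU) (resEnd t E hE)
      ((permLin ℤ sY).restrict hstabΛE) (fun x => rfl)
      (fun x => by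
        apply Subtype.ext
        change ψ (t x) = _
        rw [hψ]
        rfl)
  have c3 : cpMod p (resEnd t U hU) =
      cpMod p (resEnd t μ hμ) * cpMod p (((permLin ℝ sX).restrictScalars ℤ).restrict hstabΛ) :=
    cpMod_of_exact p iμ qU hiμ hqU hexU (resEnd t μ hμ) (resEnd t U hU)
      (((permLin ℝ sX).restrictScalars ℤ).restrict hstabΛ) (fun x => rfl)
      (fun x => by
        apply Subtype.ext
        change φ (t x) = _
        rw [hφ]
        rfl)
  -- the torsion part
  have hιμ : ∀ w, ι w ∈ μ := by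
    intro w
    obtain ⟨hwE, hwp⟩ := (hιr (ι w)).1 ⟨w, rfl⟩
    have h1 : ψ (ι w) = 0 := by
      have : p • ψ (ι w) = 0 := by rw [← map_nsmul, hwp, map_zero]
      have hp0 : (p : ℤ) ≠ 0 := by exact_mod_cast (Fact.out : p.Prime).ne_zero
      funext y
      have := congrFun this y
      simp only [Pi.smul_apply, Pi.zero_apply, smul_eq_mul, nsmul_eq_mul] at this
      rcases mul_eq_zero.mp this with h | h
      · exact absurd h hp0
      · exact h
    have h2 : φ (ι w) = 0 := by
      have : p • φ (ι w) = 0 := by rw [← map_nsmul, hwp, map_zero]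
      have hp0 : (p : ℝ) ≠ 0 := by exact_mod_cast (Fact.out : p.Prime).ne_zero
      funext y
      have := congrFun this y
      simp only [Pi.smul_apply, Pi.zero_apply, nsmul_eq_mul] at this
      rcases mul_eq_zero.mp this with h | h
      · exact absurd h hp0
      · exact h
    exact (hμmem _).2 ⟨h2, (hUmem _).2 ⟨h1, hwE⟩⟩
  let ι' : W →+ ↥μ := ι.codRestrict μ hιμ
  have c4 : cpMod p (resEnd t μ hμ) = gμ.charpoly := by
    apply cpMod_eq_charpoly_of_torsion_model p (resEnd t μ hμ) gμ ι'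
    · intro x y hxy
      exact hι (congrArg Subtype.val hxy)
    · intro a ha
      have ha' : p • (a : A) = 0 := by
        have := congrArg Subtype.val ha
        simpa using this
      obtain ⟨w, hw⟩ := (hιr (a : A)).2 ⟨hUE (hμU a.2), ha'⟩
      exact ⟨w, Subtype.ext hw⟩
    · intro w
      apply Subtype.ext
      exact hgμ w
  -- the integral identities
  have z1 : (((permLin ℝ sX).restrictScalars ℤ).restrict hstabΛ).charpoly * (Polynomial.X - 1) =
      (permLin ℤ sX).charpoly := by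
    subst hΛdef
    exact charpoly_logLattice sX hsX r b hb hspan hstabΛ
  have z2 : ((permLin ℤ sY).restrict hstabΛE).charpoly = (permLin ℤ sY).charpoly :=
    charpoly_finiteIndex sY ΛE hΛEidx hstabΛE
  -- assembly
  rw [c1, c2, c3, c4, cpMod_free, cpMod_free, z2, permLin_charpoly_map ℤ (ZMod p) sX,
    permLin_charpoly_map ℤ (ZMod p) sY, ← z1, Polynomial.map_mul]
  have hX : ((Polynomial.X - 1 : ℤ[X])).map (algebraMap ℤ (ZMod p)) = Polynomial.X - 1 := by
    simp
  rw [hX]
  have hcast : (Int.castRingHom (ZMod p)) = algebraMap ℤ (ZMod p) := rfl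
  rw [hcast]
  ring

end Core

end Fermat.Agent.S56.Euler.H896
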