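/-
S56 / W-BASE / leaf **EUL-HERB** (helper896): the equivariant `T`-unit theorem mod `p`,
in characteristic-polynomial form.

`L/K` Galois extension of number fields, `T` a finite set of primes of `K`, `τ ∈ Gal(L/K)`
ARBITRARY, `p` ANY prime.  Vocabulary of the landed block `S55/G` (`SpecUnits`, `OrdH707`):
`sUnits K L T ≤ Additive Lˣ` (the `T`-units of `L`), `unitsHom K L τ` (the action of `τ`),
`primesAbove K L T` with the action `OrdH707.actX`.

`herbCharpoly` : for every model `(V, π, g)` of `E_T/p` with the endomorphism induced by `τ`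
and every model `(W, ι, gμ)` of `μ_p(L)`:

  `charpoly(g) · (X - 1)
      = charpoly(gμ) · charpoly(τ | 𝔽_p^{InfinitePlace L}) · charpoly(τ | 𝔽_p^{primesAbove T})`

where `τ` acts on functions by `(τ a) w = a (τ⁻¹ • w)`.
For `τ` of order prime to `p` this is the identity
`[E_T/p] = [μ_p] + [𝔽_p[S_∞]] + [𝔽_p[T_L]] - [𝔽_p]` in `G₀(𝔽_p[⟨τ⟩])`.
-/
import Mathlib
import Fermat.Agent.S55.G.Log101
import Fermat.Agent.S55.G.OrdH707
import Fermat.Agent.S56.Euler.H896.HerbCore

set_option autoImplicit false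
set_option linter.style.haveILetI false
set_option linter.unusedSimpArgs false
set_option linter.unusedVariables false
set_option linter.unusedSectionVars false

namespace Fermat.Agent.S56.Euler.H896

open Polynomial NumberField IsDedekindDomain Fermat.Agent.S55.G Fermat.Agent.S55.G.OrdH707

universe u v

section Stability

variable (K : Type u) (L : Type v) [Field K] [Field L] [NumberField K] [NumberField L]
  [Algebra K L] [IsGalois K L] (T : Finset (HeightOneSpectrum (𝓞 K)))

lemma valuation_unitsHom (τ : L ≃ₐ[K] L) (w : HeightOneSpectrum (𝓞 L)) (x : Additive Lˣ) :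
    w.valuation L ((Additive.toMul (unitsHom K L τ x) : Lˣ) : L) =
      (smulH K L τ⁻¹ w).valuation L ((Additive.toMul x : Lˣ) : L) := by
  have h := valuation_smulH K L τ (smulH K L τ⁻¹ w) ((Additive.toMul x : Lˣ) : L)
  rw [← smulH_mul, mul_inv_cancel, smulH_one] at h
  exact h

lemma unitsHom_mem_intUnits (τ : L ≃ₐ[K] L) (x : Additive Lˣ) (hx : x ∈ intUnits L) :
    unitsHom K L τ x ∈ intUnits L := by
  rw [mem_intUnits_iff] at hx ⊢
  intro w
  rw [valuation_unitsHom]
  exact hx _

lemma unitsHom_mem_sUnits (τ : L ≃ₐ[K] L) (x : Additive Lˣ) (hx : x ∈ sUnits K L T) :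
    unitsHom K L τ x ∈ sUnits K L T := by
  rw [mem_sUnits_iff] at hx ⊢
  intro w hw
  rw [valuation_unitsHom]
  apply hx
  intro h
  apply hw
  have := smulH_mem K L T τ h
  rwa [← smulH_mul, mul_inv_cancel, smulH_one] at this

lemma torsion_mem_sUnits (n : ℕ) (hn : n ≠ 0) (x : Additive Lˣ) (hx : n • x = 0) :
    x ∈ sUnits K L T := by
  rw [mem_sUnits_iff]
  intro w _
  have h1 : (Additive.toMul x : Lˣ) ^ n = 1 := by
    have := congrArg Additive.toMul hx
    simpa using this
  have h2 : (w.valuation L ((Additive.toMul x : Lˣ) : L)) ^ n = 1 := by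
    rw [← map_pow, ← Units.val_pow_eq_pow_val, h1, Units.val_one, map_one]
  exact (pow_eq_one_iff_of_nonneg zero_le hn).1 h2

end Stability

section Main

variable (K : Type u) (L : Type v) [Field K] [Field L] [NumberField K] [NumberField L]
  [Algebra K L] [IsGalois K L] (T : Finset (HeightOneSpectrum (𝓞 K)))

/-- The permutation action of `τ` on `𝔽_p`-valued functions on the infinite places of `L`:
`(τ a) w = a (τ⁻¹ • w)`. -/
noncomputable def permInf (p : ℕ) (τ : L ≃ₐ[K] L) :
    (InfinitePlace L → ZMod p) →ₗ[ZMod p] (InfinitePlace L → ZMod p) :=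
  permLin (ZMod p) (fun w : InfinitePlace L => τ⁻¹ • w)

/-- The permutation action of `τ` on `𝔽_p`-valued functions on the primes of `L` above `T`:
`(τ a) w = a (τ⁻¹ • w)` (action `OrdH707.actX`). -/
noncomputable def permFin (p : ℕ) (τ : L ≃ₐ[K] L) :
    (↥(primesAbove K L T) → ZMod p) →ₗ[ZMod p] (↥(primesAbove K L T) → ZMod p) :=
  letI := actX K L T
  permLin (ZMod p) (fun w : ↥(primesAbove K L T) => τ⁻¹ • w)

/-- **EUL-HERB** (characteristic polynomial form). -/
theorem herbCharpoly (τ : L ≃ₐ[K] L) (p : ℕ) [Fact p.Prime]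
    {V : Type*} [AddCommGroup V] [Module (ZMod p) V] [Module.Finite (ZMod p) V]
    (g : V →ₗ[ZMod p] V) (π : ↥(sUnits K L T) →+ V) (hπ : Function.Surjective π)
    (hπk : ∀ a, π a = 0 → ∃ b, a = p • b)
    (hg : ∀ a b : ↥(sUnits K L T), (b : Additive Lˣ) = unitsHom K L τ a → π b = g (π a))
    {W : Type*} [AddCommGroup W] [Module (ZMod p) W] [Module.Finite (ZMod p) W]
    (gμ : W →ₗ[ZMod p] W) (ι : W →+ Additive Lˣ) (hι : Function.Injective ι)
    (hιr : ∀ a, a ∈ ι.range ↔ p • a = 0)
    (hgμ : ∀ w, ι (gμ w) = unitsHom K L τ (ι w)) :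
    letI := fintypeX K L T
    g.charpoly * (Polynomial.X - 1) =
      gμ.charpoly * (permInf K L p τ).charpoly * (permFin K L T p τ).charpoly := by
  classical
  letI := actX K L T
  letI := fintypeX K L T
  obtain ⟨φ, hφeq, hφfin, r, b, hb, hspan, hUφ⟩ := Log101.unitsLogSpec.{u, v} K L
  exact herb_core (unitsHom K L τ) (intUnits L) (sUnits K L T)
    (unitsHom_mem_intUnits K L τ) (unitsHom_mem_sUnits K L T τ)
    (fun w : InfinitePlace L => τ⁻¹ • w) (MulAction.bijective τ⁻¹)
    (fun w : ↥(primesAbove K L T) => τ⁻¹ • w)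
    φ (fun a => hφeq τ a) hφfin r b hb hspan hUφ
    (ordHom K L T) (fun a => ordHom_equivariant K L T τ a)
    (ker_inf_sUnits K L T) (index_map_ordHom K L T)
    p g π hπ hπk hg gμ ι hι
    (fun a => by
      rw [hιr]
      exact ⟨fun h => ⟨torsion_mem_sUnits K L T p (Fact.out : p.Prime).ne_zero a h, h⟩,
        fun h => h.2⟩)
    hgμ

end Main

end Fermat.Agent.S56.Euler.H896
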